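import Fermat.Statements.S05
import Fermat.Agent.EC.MultInertia

set_option autoImplicit false
open WeierstrassCurve WeierstrassCurve.Affine WeierstrassCurve.Affine.Point
open CuspForm ModularFormClass UpperHalfPlane
open FreyPackage

namespace Fermat.Agent.S05

open Fermat.Agent.EC

section

variable {K Γ₀ : Type*} [Field K] [LinearOrderedCommGroupWithZero Γ₀] {v : Valuation K Γ₀}

lemma val_int_eq_one {q : ℕ} (hq : q.Prime) (hvq : v (q : K) < 1) {n : ℤ} (hn : ¬ (q : ℤ) ∣ n) :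
    v (n : K) = 1 := by
  refine le_antisymm (val_intCast_le_one v n) ?_
  by_contra hlt
  rw [not_le] at hlt
  have hco : IsCoprime (q : ℤ) n :=
    (Int.prime_iff_natAbs_prime.mpr (by simpa using hq)).coprime_iff_not_dvd.mpr hn
  obtain ⟨s, t, h⟩ := hco
  have h1 : v ((s : K) * (q : K) + (t : K) * (n : K)) = 1 := by
    have : (s : K) * (q : K) + (t : K) * (n : K) = 1 := by exact_mod_cast congrArg (Int.cast : ℤ → K) h
    rw [this, _root_.map_one]
  have h2 : v ((s : K) * (q : K) + (t : K) * (n : K)) < 1 := by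
    refine (v.map_add _ _).trans_lt (max_lt ?_ ?_)
    · rw [map_mul]; exact lt_of_le_of_lt (mul_le_of_le_one_left' (val_intCast_le_one v s)) hvq
    · rw [map_mul]; exact lt_of_le_of_lt (mul_le_of_le_one_left' (val_intCast_le_one v t)) hlt
  exact absurd h1 h2.ne

lemma val_int_lt_one {q : ℕ} (hvq : v (q : K) < 1) {n : ℤ} (hn : (q : ℤ) ∣ n) :
    v (n : K) < 1 := by
  obtain ⟨m, rfl⟩ := hn
  push_cast
  rw [map_mul]
  exact lt_of_le_of_lt (mul_le_of_le_one_right' (val_intCast_le_one v m)) hvq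

end

theorem result (P : FreyPackage) {q : ℕ} (hq : q.Prime) (hq2 : q ≠ 2) (hqp : q ≠ P.p) : P.GaloisRepUnramifiedAt q := by
  intro A hA σ hσ ⟨x, hx⟩
  apply Subtype.ext
  change σ • x = x
  set K := AlgebraicClosure ℚ with hKdef
  set v := A.valuation with hvdef
  have hvq : v (q : K) < 1 := A.mem_nonunits_iff.mp hA
  have hTM : TrivMod v σ := trivMod_of_mem_inertia A hσ
  have hqZ : Prime (q : ℤ) := Int.prime_iff_natAbs_prime.mpr (by simpa using hq)
  have hpx : P.p • x = 0 := by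
    have := (Submodule.mem_torsionBy_iff _ _).mp hx
    rwa [← natCast_zsmul]
  -- valuations of integers
  have hvp : v ((P.p : ℕ) : K) = 1 := by
    have : ¬ (q : ℤ) ∣ (P.p : ℤ) := by
      intro h
      exact hqp ((Nat.prime_dvd_prime_iff_eq hq P.pp).mp (Int.natCast_dvd_natCast.mp h))
    exact_mod_cast val_int_eq_one hq hvq this
  have hv2 : v (2 : K) = 1 := by
    have : ¬ (q : ℤ) ∣ (2 : ℤ) := by
      intro h
      exact hq2 ((Nat.prime_dvd_prime_iff_eq hq Nat.prime_two).mp (by exact_mod_cast h))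
    exact_mod_cast val_int_eq_one hq hvq this
  have hv4 : v (4 : K) = 1 := by
    have : (4 : K) = 2 ^ 2 := by norm_num
    rw [this, map_pow, hv2, one_pow]
  have hv16 : v (16 : K) = 1 := by
    have : (16 : K) = 2 ^ 4 := by norm_num
    rw [this, map_pow, hv2, one_pow]
  set a : K := (P.a : K) with ha
  set b : K := (P.b : K) with hb
  set c : K := (P.c : K) with hc
  have habc : a ^ P.p + b ^ P.p = c ^ P.p := by
    rw [ha, hb, hc]; exact_mod_cast congrArg (Int.cast : ℤ → K) P.hFLT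
  have hva : v a ≤ 1 := val_intCast_le_one v _
  have hvb : v b ≤ 1 := val_intCast_le_one v _
  have hvc : v c ≤ 1 := val_intCast_le_one v _
  have ha0 : a ≠ 0 := by rw [ha]; exact_mod_cast P.ha0
  have hb0 : b ≠ 0 := by rw [hb]; exact_mod_cast P.hb0
  have hc0 : c ≠ 0 := by rw [hc]; exact_mod_cast P.hc0
  have hp0 : P.p ≠ 0 := P.hp0
  -- coefficients
  have ea₁ : (P.freyCurve⁄K).a₁ = 1 := by
    change algebraMap ℚ K 1 = 1
    simp
  have ea₂ : (P.freyCurve⁄K).a₂ = (b ^ P.p - 1 - a ^ P.p) / 4 := by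
    change algebraMap ℚ K (((P.b : ℚ) ^ P.p - 1 - (P.a : ℚ) ^ P.p) / 4) = _
    simp [ha, hb]
  have ea₃ : (P.freyCurve⁄K).a₃ = 0 := by
    change algebraMap ℚ K 0 = 0
    simp
  have ea₄ : (P.freyCurve⁄K).a₄ = -(a ^ P.p) * (b ^ P.p) / 16 := by
    change algebraMap ℚ K (-((P.a : ℚ) ^ P.p) * ((P.b : ℚ) ^ P.p) / 16) = _
    simp only [ha, hb, map_div₀, map_mul, map_neg, map_pow, map_intCast, map_ofNat]
  have ea₆ : (P.freyCurve⁄K).a₆ = 0 := by
    change algebraMap ℚ K 0 = 0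
    simp
  have eb₂ : (P.freyCurve⁄K).b₂ = b ^ P.p - a ^ P.p := by
    rw [WeierstrassCurve.b₂, ea₁, ea₂]; ring
  have eb₄ : (P.freyCurve⁄K).b₄ = -(a ^ P.p) * (b ^ P.p) / 8 := by
    rw [WeierstrassCurve.b₄, ea₁, ea₃, ea₄]; ring
  have eb₆ : (P.freyCurve⁄K).b₆ = 0 := by
    rw [WeierstrassCurve.b₆, ea₃, ea₆]; ring
  have eb₈ : (P.freyCurve⁄K).b₈ = -(-(a ^ P.p) * (b ^ P.p) / 16) ^ 2 := by
    rw [WeierstrassCurve.b₈, ea₁, ea₂, ea₃, ea₄, ea₆]; ring
  have iA : a ^ P.p ∈ v.integer := pow_mem (show a ∈ v.integer from hva) _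
  have iB : b ^ P.p ∈ v.integer := pow_mem (show b ∈ v.integer from hvb) _
  have i1 : (1 : K) ∈ v.integer := one_mem _
  have hW : IsInt v (P.freyCurve⁄K) := by
    refine ⟨?_, ?_, ?_, ?_, ?_⟩
    · rw [ea₁, _root_.map_one]
    · rw [ea₂, map_div₀, hv4, div_one]
      exact sub_mem (sub_mem iB i1) iA
    · rw [ea₃, _root_.map_zero]; exact zero_le
    · rw [ea₄, map_div₀, hv16, div_one]
      exact mul_mem (neg_mem iA) iB
    · rw [ea₆, _root_.map_zero]; exact zero_le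
  have hσint : ∀ n : ℤ, σ (n : K) = (n : K) := fun n => map_intCast σ n
  have hσa : σ a = a := hσint _
  have hσb : σ b = b := hσint _
  have hσc : σ c = c := hσint _
  have hσ16 : σ 16 = 16 := map_ofNat σ 16
  have hσ4 : σ 4 = 4 := map_ofNat σ 4
  -- pairwise coprimality
  have cab : ¬ ((q : ℤ) ∣ P.a ∧ (q : ℤ) ∣ P.b) := by
    rintro ⟨h1, h2⟩
    have h3 := dvd_gcd h1 h2
    rw [P.hgcdab] at h3
    exact hqZ.not_isUnit (isUnit_of_dvd_one h3)
  have cac : ¬ ((q : ℤ) ∣ P.a ∧ (q : ℤ) ∣ P.c) := by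
    rintro ⟨h1, h2⟩
    have h3 := dvd_gcd h1 h2
    rw [P.hgcdac] at h3
    exact hqZ.not_isUnit (isUnit_of_dvd_one h3)
  have cbc : ¬ ((q : ℤ) ∣ P.b ∧ (q : ℤ) ∣ P.c) := by
    rintro ⟨h1, h2⟩
    have h3 := dvd_gcd h1 h2
    rw [P.hgcdbc] at h3
    exact hqZ.not_isUnit (isUnit_of_dvd_one h3)
  have h16 : (16 : K) ≠ 0 := by norm_num
  by_cases hqa : (q : ℤ) ∣ P.a
  · -- `q ∣ a`
    have hva1 : v a < 1 := val_int_lt_one hvq hqa
    have hvb1 : v b = 1 := val_int_eq_one hq hvq (fun h => cab ⟨hqa, h⟩)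
    refine smul_eq_of_mult (v := v) (e := 0) (β := -(a ^ P.p) * (b ^ P.p) / 16) (d := a) hW
      (by simp) ?_ ?_ ?_ ?_ hv2 P.hp_odd hvp ha0 hva1 ?_ hTM (_root_.map_zero σ) ?_ hσa x hpx
    · rw [eb₄]; ring
    · rw [eb₄, eb₆]; ring
    · rw [eb₄, eb₆, eb₈]; ring
    · rw [eb₂, mul_zero, add_zero, Valuation.map_sub_eq_of_lt_left v, map_pow, hvb1, one_pow]
      rw [map_pow, map_pow, hvb1, one_pow]
      exact pow_lt_one₀ zero_le hva1 hp0
    · rw [map_div₀, hv16, div_one, map_mul, Valuation.map_neg, map_pow, map_pow, hvb1, one_pow,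
        mul_one]
    · simp only [map_div₀, map_mul, map_neg, map_pow, hσa, hσb, hσ16]
  by_cases hqb : (q : ℤ) ∣ P.b
  · -- `q ∣ b`
    have hvb1 : v b < 1 := val_int_lt_one hvq hqb
    have hva1 : v a = 1 := val_int_eq_one hq hvq hqa
    refine smul_eq_of_mult (v := v) (e := 0) (β := -(a ^ P.p) * (b ^ P.p) / 16) (d := b) hW
      (by simp) ?_ ?_ ?_ ?_ hv2 P.hp_odd hvp hb0 hvb1 ?_ hTM (_root_.map_zero σ) ?_ hσb x hpx
    · rw [eb₄]; ring
    · rw [eb₄, eb₆]; ring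
    · rw [eb₄, eb₆, eb₈]; ring
    · rw [eb₂, mul_zero, add_zero, Valuation.map_sub_eq_of_lt_right v, map_pow, hva1, one_pow]
      rw [map_pow, map_pow, hva1, one_pow]
      exact pow_lt_one₀ zero_le hvb1 hp0
    · rw [map_div₀, hv16, div_one, map_mul, Valuation.map_neg, map_pow, map_pow, hva1, one_pow,
        one_mul]
    · simp only [map_div₀, map_mul, map_neg, map_pow, hσa, hσb, hσ16]
  by_cases hqc : (q : ℤ) ∣ P.c
  · -- `q ∣ c`
    have hvc1 : v c < 1 := val_int_lt_one hvq hqc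
    have hva1 : v a = 1 := val_int_eq_one hq hvq hqa
    have hB : b ^ P.p = c ^ P.p - a ^ P.p := by rw [← habc]; ring
    refine smul_eq_of_mult (v := v) (e := a ^ P.p / 4) (β := a ^ P.p * c ^ P.p / 16) (d := c) hW
      ?_ ?_ ?_ ?_ ?_ hv2 P.hp_odd hvp hc0 hvc1 ?_ hTM ?_ ?_ hσc x hpx
    · rw [map_div₀, hv4, div_one]; exact iA
    · rw [eb₄, eb₂, hB]; ring
    · rw [eb₄, eb₂, eb₆, hB]; ring
    · rw [eb₄, eb₂, eb₆, eb₈, hB]; ring
    · have : (P.freyCurve⁄K).b₂ + 12 * (a ^ P.p / 4) = a ^ P.p + c ^ P.p := by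
        rw [eb₂, hB]; ring
      rw [this, Valuation.map_add_eq_of_lt_left v, map_pow, hva1, one_pow]
      rw [map_pow, map_pow, hva1, one_pow]
      exact pow_lt_one₀ zero_le hvc1 hp0
    · rw [map_div₀, hv16, div_one, map_mul, map_pow, map_pow, hva1, one_pow, one_mul]
    · simp only [map_div₀, map_pow, hσa, hσ4]
    · simp only [map_div₀, map_mul, map_pow, hσa, hσc, hσ16]
  · -- good reduction
    have hva1 : v a = 1 := val_int_eq_one hq hvq hqa
    have hvb1 : v b = 1 := val_int_eq_one hq hvq hqb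
    have hvc1 : v c = 1 := val_int_eq_one hq hvq hqc
    have h256 : v (256 : K) = 1 := by
      have : (256 : K) = 2 ^ 8 := by norm_num
      rw [this, map_pow, hv2, one_pow]
    have hΔ : (P.freyCurve⁄K).Δ = (a ^ P.p) ^ 2 * (b ^ P.p) ^ 2 * (c ^ P.p) ^ 2 / 256 := by
      rw [WeierstrassCurve.Δ, eb₂, eb₄, eb₆, eb₈, ← habc]; ring
    refine smul_eq_of_good (v := v) hW ?_ hTM hvp x hpx
    rw [hΔ, map_div₀, h256, div_one]
    simp only [map_mul, map_pow, hva1, hvb1, hvc1, one_pow, one_mul]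

end Fermat.Agent.S05
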