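import Fermat.Statements.S07
import Fermat.Prelude.Thm_ModularForm_sturm_bound_Gamma0

set_option autoImplicit false
open WeierstrassCurve WeierstrassCurve.Affine WeierstrassCurve.Affine.Point
open CuspForm ModularFormClass UpperHalfPlane
open ModularForm

namespace Fermat.Agent.S07

open scoped MatrixGroups

/-- the Gamma0(2)-coset of `A` only depends on the parity of its bottom row -/
lemma rel_of_bottom_row (A B : SL(2, ℤ)) (h0 : ((A 1 0 : ℤ) : ZMod 2) = (B 1 0 : ℤ))
    (h1 : ((A 1 1 : ℤ) : ZMod 2) = (B 1 1 : ℤ)) :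
    A * B⁻¹ ∈ CongruenceSubgroup.Gamma0 2 := by
  rw [CongruenceSubgroup.Gamma0_mem]
  have : (A * B⁻¹) 1 0 = A 1 0 * B 1 1 - A 1 1 * B 1 0 := by
    simp [Matrix.SpecialLinearGroup.SL2_inv_expl, Matrix.mul_apply, Fin.sum_univ_two]
    ring
  rw [this]
  push_cast
  rw [h0, h1]
  ring

lemma index_le : (CongruenceSubgroup.Gamma0 2).index ≤ 3 := by
  classical
  -- the map from right cosets (left cosets of inverse) to nonzero vectors of `F₂²`.
  let S : Type := {v : ZMod 2 × ZMod 2 // v ≠ 0}
  have hS : Nat.card S = 3 := by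
    simp only [S, Nat.card_eq_fintype_card]
    decide
  let F : SL(2, ℤ) → S := fun A => ⟨(((A 1 0 : ℤ) : ZMod 2), ((A 1 1 : ℤ) : ZMod 2)), by
    intro h
    rw [Prod.mk_eq_zero] at h
    have hdet := A.det_coe
    rw [Matrix.det_fin_two] at hdet
    have h2 := congrArg (fun z : ℤ => (z : ZMod 2)) hdet
    push_cast at h2
    rw [h.1, h.2] at h2
    simp at h2⟩
  let G : SL(2, ℤ) ⧸ (CongruenceSubgroup.Gamma0 2) → S := fun q => F (q.out)⁻¹
  have hG : Function.Injective G := by
    intro a b hab
    have hab1 : F (a.out)⁻¹ = F (b.out)⁻¹ := hab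
    have hab' := Prod.ext_iff.mp (congrArg Subtype.val hab1)
    have := rel_of_bottom_row _ _ hab'.1 hab'.2
    rw [inv_inv] at this
    rw [← QuotientGroup.out_eq' a, ← QuotientGroup.out_eq' b]
    rw [QuotientGroup.eq]
    exact this
  have := Nat.card_le_card_of_injective G hG
  rw [hS] at this
  exact this

theorem result (f : CuspForm (CongruenceSubgroup.Gamma0 2) 2) : f = 0 := by
  have key : (CuspForm.toModularFormₗ f) = 0 := by
    apply ModularForm.sturm_bound_Gamma0 2
    intro n hn
    have hidx := index_le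
    have hn0 : n = 0 := by
      have : ((2 : ℤ) * ((CongruenceSubgroup.Gamma0 2).index : ℤ)).toNat / 12 = 0 := by
        omega
      rw [this] at hn
      omega
    subst hn0
    have := CuspFormClass.qExpansion_coeff_zero (h := 1) f one_pos (by
      simp)
    exact this
  apply CuspForm.toModularFormₗ_injective
  rw [key, _root_.map_zero]

end Fermat.Agent.S07
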