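import Fermat.Statements.S08
import Fermat.Prelude.Thm_ModularForm_sturm_bound_Gamma0

set_option autoImplicit false
open WeierstrassCurve WeierstrassCurve.Affine WeierstrassCurve.Affine.Point
open CuspForm ModularFormClass UpperHalfPlane
open ModularForm

namespace Fermat.Agent.S08

lemma index_eq : (CongruenceSubgroup.Gamma0 1).index = 1 := by
  rw [Subgroup.index_eq_one, eq_top_iff]
  intro A _
  rw [CongruenceSubgroup.Gamma0_mem]
  exact Subsingleton.elim _ _

theorem result (f : CuspForm (CongruenceSubgroup.Gamma0 1) 2) : f = 0 := by
  have key : (CuspForm.toModularFormₗ f) = 0 := by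
    apply ModularForm.sturm_bound_Gamma0 1
    intro n hn
    have hidx := index_eq
    have hn0 : n = 0 := by
      have : ((2 : ℤ) * ((CongruenceSubgroup.Gamma0 1).index : ℤ)).toNat / 12 = 0 := by
        omega
      rw [this] at hn
      omega
    subst hn0
    have := CuspFormClass.qExpansion_coeff_zero (h := 1) f one_pos (by
      simp)
    exact this
  apply CuspForm.toModularFormₗ_injective
  rw [key, _root_.map_zero]

end Fermat.Agent.S08
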