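import Fermat.Statements.S02

set_option autoImplicit false
open FreyPackage

namespace Fermat.Agent.S02

/-- Final step: coprime, `b` even. Then possibly negate everything. -/
theorem aux_of_even (a b c : ℤ) (ha : a ≠ 0) (hb : b ≠ 0) (hc : c ≠ 0) (p : ℕ)
    (pp : p.Prime) (hp5 : 5 ≤ p) (H : a ^ p + b ^ p = c ^ p) (hab : gcd a b = 1)
    (hb2 : (2 : ℤ) ∣ b) : Nonempty FreyPackage := by
  have hodd : Odd p := pp.odd_of_ne_two (by omega)
  have ha2 : ¬ (2 : ℤ) ∣ a := by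
    intro h2
    have : (2 : ℤ) ∣ gcd a b := dvd_gcd h2 hb2
    rw [hab] at this
    norm_num at this
  have h4 : a % 4 = 1 ∨ a % 4 = 3 := by omega
  rcases h4 with h4 | h4
  · refine ⟨⟨-a, -b, -c, neg_ne_zero.mpr ha, neg_ne_zero.mpr hb, neg_ne_zero.mpr hc, p, pp, hp5,
      ?_, ?_, ?_, ?_⟩⟩
    · rw [hodd.neg_pow, hodd.neg_pow, hodd.neg_pow]; linarith
    · rw [neg_gcd, gcd_neg, hab]
    · have : ((-a : ℤ) : ZMod 4) = ((3 : ℤ) : ZMod 4) := by
        rw [ZMod.intCast_eq_intCast_iff_dvd_sub]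
        push_cast
        omega
      simpa using this
    · have : ((-b : ℤ) : ZMod 2) = 0 := by
        rw [ZMod.intCast_zmod_eq_zero_iff_dvd]
        simpa using hb2
      exact this
  · refine ⟨⟨a, b, c, ha, hb, hc, p, pp, hp5, H, hab, ?_, ?_⟩⟩
    · have : ((a : ℤ) : ZMod 4) = ((3 : ℤ) : ZMod 4) := by
        rw [ZMod.intCast_eq_intCast_iff_dvd_sub]
        push_cast
        omega
      simpa using this
    · rw [ZMod.intCast_zmod_eq_zero_iff_dvd]
      simpa using hb2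

/-- Coprime case. -/
theorem aux_of_coprime (a b c : ℤ) (ha : a ≠ 0) (hb : b ≠ 0) (hc : c ≠ 0) (p : ℕ)
    (pp : p.Prime) (hp5 : 5 ≤ p) (H : a ^ p + b ^ p = c ^ p) (hab : gcd a b = 1) :
    Nonempty FreyPackage := by
  have hodd : Odd p := pp.odd_of_ne_two (by omega)
  by_cases hb2 : (2 : ℤ) ∣ b
  · exact aux_of_even a b c ha hb hc p pp hp5 H hab hb2
  by_cases ha2 : (2 : ℤ) ∣ a
  · exact aux_of_even b a c hb ha hc p pp hp5 (by rw [add_comm]; exact H)
      (by rw [gcd_comm]; exact hab) ha2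
  -- both odd, so `c` is even
  have ha_odd : Odd a := by
    rw [← Int.not_even_iff_odd, even_iff_two_dvd]; exact ha2
  have hb_odd : Odd b := by
    rw [← Int.not_even_iff_odd, even_iff_two_dvd]; exact hb2
  have hc_even : (2 : ℤ) ∣ c := by
    have h1 : Even (c ^ p) := by
      rw [← H]; exact (ha_odd.pow).add_odd (hb_odd.pow)
    rw [Int.even_pow] at h1
    exact even_iff_two_dvd.mp h1.1
  have hac : gcd a c = 1 := by
    rw [← gcdab_eq_gcdac (by omega : 0 < p) H, hab]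
  refine aux_of_even a (-c) (-b) ha (neg_ne_zero.mpr hc) (neg_ne_zero.mpr hb) p pp hp5 ?_ ?_ ?_
  · rw [hodd.neg_pow, hodd.neg_pow]; linarith
  · rw [gcd_neg, hac]
  · simpa using hc_even

theorem result (a b c : ℤ) (ha : a ≠ 0) (hb : b ≠ 0) (hc : c ≠ 0) (p : ℕ) (pp : p.Prime) (hp5 : 5 ≤ p) (H : a ^ p + b ^ p = c ^ p) : Nonempty FreyPackage := by
  have hp0 : p ≠ 0 := pp.ne_zero
  obtain ⟨a', ha'⟩ : gcd a b ∣ a := gcd_dvd_left a b
  obtain ⟨b', hb'⟩ : gcd a b ∣ b := gcd_dvd_right a b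
  have hd0 : gcd a b ≠ 0 := by
    intro h0
    exact ha ((gcd_eq_zero_iff a b).mp h0).1
  have hdc : gcd a b ∣ c := by
    rw [← Int.pow_dvd_pow_iff hp0, ← H]
    exact dvd_add (pow_dvd_pow_of_dvd (gcd_dvd_left a b) p)
      (pow_dvd_pow_of_dvd (gcd_dvd_right a b) p)
  obtain ⟨c', hc'⟩ := hdc
  set d := gcd a b with hd
  have ha'0 : a' ≠ 0 := by
    rintro rfl; apply ha; rw [ha']; simp
  have hb'0 : b' ≠ 0 := by
    rintro rfl; apply hb; rw [hb']; simp
  have hc'0 : c' ≠ 0 := by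
    rintro rfl; apply hc; rw [hc']; simp
  have hcop : gcd a' b' = 1 := by
    have h1 : gcd (d * a') (d * b') = d := by rw [← ha', ← hb', hd]
    rw [gcd_mul_left] at h1
    have h2 : normalize d = d := by rw [hd]; exact normalize_gcd a b
    rw [h2] at h1
    exact mul_left_cancel₀ hd0 (by rw [h1, mul_one])
  have H' : a' ^ p + b' ^ p = c' ^ p := by
    have h1 : d ^ p * (a' ^ p + b' ^ p) = d ^ p * c' ^ p := by
      rw [mul_add, ← mul_pow, ← mul_pow, ← mul_pow, ← ha', ← hb', ← hc', H]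
    exact mul_left_cancel₀ (pow_ne_zero p hd0) h1
  exact aux_of_coprime a' b' c' ha'0 hb'0 hc'0 p pp hp5 H' hcop

end Fermat.Agent.S02
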