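import Fermat.Statements.S21
import Fermat.Agent.ES.Final
import Fermat.Agent.Gamma0Comb.Orbits
import Fermat.Agent.S20

set_option autoImplicit false
open ModularCurve

namespace Fermat.Agent.S21

theorem result (N : ℕ) [NeZero N] :
    Function.Injective (ModularCurve.periodHomPair N)
      ∧ LinearMap.range (ModularCurve.periodHomPair N)
          = ModularCurve.Period.parabolicHoms ℂ (CongruenceSubgroup.Gamma0 N) ℂ := by
  refine Fermat.Agent.ES.eichlerShimura_of_counts N (Fermat.Agent.S20.result N)
    (Fermat.Agent.Gamma0Comb.card_X N) (Fermat.Agent.Gamma0Comb.card_fixedPoints_S N)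
    (Fermat.Agent.Gamma0Comb.card_fixedPoints_ST N) ?_
  exact Fermat.Agent.Gamma0Comb.finrank_invariants_T N _ (fun v => Iff.rfl)

end Fermat.Agent.S21
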