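import Mathlib
import Fermat.Statements.S24
import Fermat.Prelude.Def_ModularCurve_ArithmeticGalois
import Fermat.Prelude.Def_ModularCurve_GenusNumerics
import Fermat.Prelude.Def_AlgebraicCurve_CanonicalDivisor
import Fermat.Agent.X0Places.Degree
import Fermat.Agent.RH.Formula
import Fermat.Agent.FunField.Canonical
import Fermat.Agent.Frob.QbarInst

set_option autoImplicit false

namespace Fermat.Agent.S24

open Fermat.Agent.X0Places Fermat.Agent.FunField ModularCurve IntermediateField AlgebraicCurve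

/-- The right hand side of the Riemann-Hurwitz formula for `j : X₀(N) → ℙ¹`. -/
theorem rh_sum (L : Type*) [Field L] [Algebra ℚ L] [IsAlgClosed L] [DecidableEq L] (ι : L →+* ℂ)
    (N : ℕ) [NeZero N] :
    ∃ p q : ℕ, 3 * p = dedekindPsi N + 2 * nuThree N ∧ 2 * q = dedekindPsi N + nuTwo N ∧
    (-2 * (Module.finrank L⟮jF L N⟯ (FF L N) : ℤ) +
      ∑ a ∈ ({0, 1728} : Finset L), ∑ v ∈ (zeroDiv (jF L N - algebraMap L (FF L N) a) :
        Divisor L (FF L N)).support,
        (v.ord (jF L N - algebraMap L (FF L N) a) - 1) +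
      ∑ v ∈ (zeroDiv (jF L N)⁻¹ : Divisor L (FF L N)).support, (v.ord (jF L N)⁻¹ - 1)) =
        (dedekindPsi N : ℤ) - p - q - cuspCount N := by
  have hchar : CharZero L := algebraRat.charZero L
  have hdeg := finrank_jF L N
  have hX : Nat.card (XN N) = dedekindPsi N := Fermat.Agent.Gamma0Comb.card_X N
  obtain ⟨h0, h0'⟩ := card_places_zero N ι hdeg
  obtain ⟨h1, h1'⟩ := card_places_1728 N ι hdeg
  obtain ⟨h2, h2'⟩ := card_places_inf N ι hdeg
  refine ⟨_, _, by rw [← hX]; exact h0, by rw [← hX]; exact h1, ?_⟩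
  have hne : (0 : L) ≠ 1728 := by
    intro h
    have : ((1728 : ℕ) : L) = 0 := by exact_mod_cast h.symm
    rw [Nat.cast_eq_zero] at this
    norm_num at this
  rw [Finset.sum_pair hne, map_zero, sub_zero, h0', h1', h2', h2, hdeg, hX]
  ring

theorem unramified (L : Type*) [Field L] [Algebra ℚ L] [IsAlgClosed L] (ι : L →+* ℂ)
    (N : ℕ) [NeZero N] [DecidableEq L] (a : L) (ha : a ∉ ({0, 1728} : Finset L))
    (v : Place L (FF L N)) (hv : 0 < v.ord (jF L N - algebraMap L (FF L N) a)) :
    v.ord (jF L N - algebraMap L (FF L N) a) = 1 := by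
  rw [Finset.mem_insert, Finset.mem_singleton, not_or] at ha
  exact ord_eq_one_of_generic N ι (finrank_jF L N) a ha.1 ha.2 v hv

/-- genus formula -/
theorem genusFF_eq (L : Type*) [Field L] [Algebra ℚ L] [IsAlgClosed L] (ι : L →+* ℂ)
    (N : ℕ) [NeZero N] : (genusFF L (FF L N) : ℚ) = genusFormula N := by
  classical
  have hchar : CharZero L := algebraRat.charZero L
  obtain ⟨p, q, hp, hq, hs⟩ := rh_sum L ι N
  have h1 := Fermat.Agent.RH.riemann_hurwitz_charZero (K := L) (M := FF L N)
    (jF_transcendental_aux ι N) {0, 1728} (fun a v ha hv => unramified L ι N a ha v hv)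
  rw [hs] at h1
  have h2 : (2 : ℚ) * genusFF L (FF L N) - 2 = (dedekindPsi N : ℚ) - p - q - cuspCount N := by
    exact_mod_cast h1
  have hp' : (3 : ℚ) * p = dedekindPsi N + 2 * nuThree N := by exact_mod_cast hp
  have hq' : (2 : ℚ) * q = dedekindPsi N + nuTwo N := by exact_mod_cast hq
  rw [genusFormula]
  linarith

theorem genus_eq_genusFF (L : Type*) [Field L] [Algebra ℚ L] [IsAlgClosed L] (ι : L →+* ℂ)
    (N : ℕ) [NeZero N] [HasCanonicalDivisor (K := L) (F := FF L N)] :
    genus L (FF L N) = genusFF L (FF L N) := by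
  classical
  have hchar : CharZero L := algebraRat.charZero L
  have h1 := Fermat.Agent.RH.riemann_hurwitz_charZero (K := L) (M := FF L N)
    (jF_transcendental_aux ι N) {0, 1728} (fun a v ha hv => unramified L ι N a ha v hv)
  exact genus_eq_of_sum (jF_transcendental_aux ι N) {0, 1728}
    (fun a ha v hv => unramified L ι N a ha v hv) _ h1.symm

theorem result (N : ℕ) [NeZero N]
    [AlgebraicCurve.HasCanonicalDivisor (K := AlgebraicClosure ℚ) (F := ↥(ModularCurve.modularFunctionFieldBar N))] :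
    (AlgebraicCurve.genus (AlgebraicClosure ℚ) ↥(ModularCurve.modularFunctionFieldBar N) : ℚ)
      = ModularCurve.genusFormula N := by
  let ι : AlgebraicClosure ℚ →+* ℂ :=
    ((IsAlgClosed.lift : AlgebraicClosure ℚ →ₐ[ℚ] ℂ) : AlgebraicClosure ℚ →+* ℂ)
  have h := genus_eq_genusFF (AlgebraicClosure ℚ) ι N
  rw [h]
  exact genusFF_eq (AlgebraicClosure ℚ) ι N

end Fermat.Agent.S24
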