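import Fermat.Statements.S13
import Fermat.Agent.ECP.StableLine
import Fermat.Agent.S05

set_option autoImplicit false
open WeierstrassCurve WeierstrassCurve.Affine WeierstrassCurve.Affine.Point
open CuspForm ModularFormClass UpperHalfPlane
open FreyPackage

namespace Fermat.Agent.S13

theorem result (P : FreyPackage) (hred : ¬ GaloisRepIsIrreducible (K := AlgebraicClosure ℚ) ℚ P.freyCurve P.p) : HasGaloisStableCofixedLine (K := AlgebraicClosure ℚ) ℚ P.freyCurve P.p := by
  have hp5 := P.hp5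
  have hpF : ((P.p : ℕ) : AlgebraicClosure ℚ) ≠ 0 := by exact_mod_cast P.hp0
  obtain ⟨hfin, hcard⟩ := Fermat.Agent.ECP.torsion_card_le (W := P.freyCurve⁄(AlgebraicClosure ℚ))
    P.pp (by omega) hpF
  have hset : {Q : (P.freyCurve⁄(AlgebraicClosure ℚ)).Point | P.p • Q = 0} =
      (Submodule.torsionBy ℤ (P.freyCurve⁄(AlgebraicClosure ℚ)).Point P.p :
        Set (P.freyCurve⁄(AlgebraicClosure ℚ)).Point) := by
    ext Q
    rw [SetLike.mem_coe, Submodule.mem_torsionBy_iff]
    change P.p • Q = 0 ↔ _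
    rw [natCast_zsmul]
  rw [hset] at hfin hcard
  have hfin' : Finite (Submodule.torsionBy ℤ (P.freyCurve⁄(AlgebraicClosure ℚ)).Point P.p) :=
    hfin.to_subtype
  have hcard' : Nat.card (Submodule.torsionBy ℤ (P.freyCurve⁄(AlgebraicClosure ℚ)).Point P.p) ≤
      P.p ^ 2 := hcard
  obtain ⟨x₀, hx₀, hpx₀⟩ := Fermat.Agent.ECP.frey_exists_torsion P
  have hnt : Nontrivial (Submodule.torsionBy ℤ (P.freyCurve⁄(AlgebraicClosure ℚ)).Point P.p) := by
    refine ⟨⟨x₀, ?_⟩, 0, fun h => hx₀ (congrArg Subtype.val h)⟩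
    rw [Submodule.mem_torsionBy_iff, natCast_zsmul]
    exact hpx₀
  unfold GaloisRepIsIrreducible at hred
  rw [not_and] at hred
  have h1 := hred hnt
  push Not at h1
  obtain ⟨N, hN, hbot, htop⟩ := h1
  refine ⟨N, hN, hbot, htop, ?_⟩
  rcases Fermat.Agent.ECP.frey_line_dichotomy P hcard'
    (fun q hq hq2 hqp => Fermat.Agent.S05.result P hq hq2 hqp) hbot htop hN with h | h
  · exfalso
    apply hbot
    rw [Submodule.eq_bot_iff]
    intro x hx
    have h2 := Fermat.Agent.EC.frey_no_rational_torsion P x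
      (Fermat.Agent.ECP.nsmul_coe_eq_zero x)
      (fun σ => congrArg Subtype.val (h σ x hx))
    exact Subtype.ext h2
  · exact h

end Fermat.Agent.S13
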