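import Fermat.Statements.S51
import Fermat.Agent.S51_lib.X015
import Fermat.Agent.S51_lib.Galois
-- import your own Fermat.Agent.* helpers here

set_option autoImplicit false
open WeierstrassCurve WeierstrassCurve.Affine WeierstrassCurve.Affine.Point
open CuspForm ModularFormClass UpperHalfPlane
open WeierstrassCurve

namespace Fermat.Agent.S51

lemma five_dvd_of_dvd_pow {c Δ A B : ℤ} (h : A * c ^ 3 = B * Δ) (hA : ¬ (5 : ℤ) ∣ A)
    (hB : (5 : ℤ) ∣ B) (hB3 : ¬ (5 ^ 3 : ℤ) ∣ B) : (5 : ℤ) ∣ Δ ∧ (5 : ℤ) ∣ c := by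
  have hp : Prime (5 : ℤ) := Int.prime_iff_natAbs_prime.mpr (by norm_num)
  have h1 : (5 : ℤ) ∣ A * c ^ 3 := by rw [h]; exact hB.mul_right Δ
  have h2 : (5 : ℤ) ∣ c := by
    rcases hp.dvd_or_dvd h1 with h2 | h2
    · exact absurd h2 hA
    · exact hp.dvd_of_dvd_pow h2
  refine ⟨?_, h2⟩
  by_contra h3
  apply hB3
  have h4 : (5 ^ 3 : ℤ) ∣ B * Δ := by
    rw [← h]
    exact (pow_dvd_pow_of_dvd h2 3).mul_left A
  exact (hp.pow_dvd_of_dvd_mul_right 3 h3 h4)

lemma no_five {c Δ A B : ℤ} (hss : (5 : ℤ) ∣ Δ → ¬ (5 : ℤ) ∣ c) (h : A * c ^ 3 = B * Δ)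
    (hA : ¬ (5 : ℤ) ∣ A) (hB : (5 : ℤ) ∣ B) (hB3 : ¬ (5 ^ 3 : ℤ) ∣ B) : False := by
  obtain ⟨h1, h2⟩ := five_dvd_of_dvd_pow h hA hB hB3
  exact hss h1 h2

theorem result (W : WeierstrassCurve ℤ) (hΔ : W.Δ ≠ 0) (hW : W.IsSemistableModel) : W.ModRepIsIrreducible 3 ∨ W.ModRepIsIrreducible 5 := by
  by_contra hcon
  rw [not_or] at hcon
  obtain ⟨h3, h5⟩ := hcon
  unfold ModRepIsIrreducible at h3 h5
  generalize hE : W.map (Int.castRingHom ℚ) = E at h3 h5
  have hEΔ : E.Δ = (W.Δ : ℚ) := by rw [← hE, WeierstrassCurve.map_Δ]; rfl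
  have hEc4 : E.c₄ = (W.c₄ : ℚ) := by rw [← hE, WeierstrassCurve.map_c₄]; rfl
  have hΔE : E.Δ ≠ 0 := by rw [hEΔ]; exact_mod_cast hΔ
  obtain ⟨q, hq⟩ := Galois.three E hΔE h3
  obtain ⟨x, x', s, p, hne, hs, hp, r1, r2, hx3, hx3'⟩ := Galois.five E hΔE h5
  -- the relations over `ℚ`
  have R1K := Torsion.R1_of hne r1 r2
  have R1 : s ^ 3 - 6 * p * s - E.b₄ * s - E.b₂ * p - E.b₆ = 0 := by
    apply (algebraMap ℚ (AlgebraicClosure ℚ)).injective
    rw [Galois.bb₂, Galois.bb₄, Galois.bb₆, ← hs, ← hp] at R1K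
    simp only [map_sub, map_mul, map_pow, map_ofNat, _root_.map_zero]
    linear_combination R1K
  have R3K := Torsion.R3_of (by norm_num) hne r1 r2
  have R3 : p * s ^ 2 - 5 * p ^ 2 + E.b₄ * p + E.b₆ * s + E.b₈ = 0 := by
    apply (algebraMap ℚ (AlgebraicClosure ℚ)).injective
    rw [Galois.bb₄, Galois.bb₆, Galois.bb₈, ← hs, ← hp] at R3K
    simp only [_root_.map_add, map_sub, map_mul, map_pow, map_ofNat, _root_.map_zero]
    linear_combination R3K
  -- shift the abscissa of the 3-torsion point to `0`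
  have hb : 4 * E.b₈ = E.b₂ * E.b₆ - E.b₄ ^ 2 := E.b_relation
  have hxq : ∀ {z : AlgebraicClosure ℚ}, Torsion.P3 (WeierstrassCurve.baseChange E (AlgebraicClosure ℚ)) z ≠ 0 →
      z - algebraMap ℚ (AlgebraicClosure ℚ) q ≠ 0 := by
    intro z hz h0
    apply hz
    rw [sub_eq_zero.mp h0, Galois.P3_map, hq, _root_.map_zero]
  have hp' : p - q * s + q ^ 2 ≠ 0 := by
    intro h0
    have h1 := congrArg (algebraMap ℚ (AlgebraicClosure ℚ)) h0
    simp only [_root_.map_add, map_sub, map_mul, map_pow, _root_.map_zero, hs, hp] at h1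
    have h2 : (x - algebraMap ℚ (AlgebraicClosure ℚ) q) *
        (x' - algebraMap ℚ (AlgebraicClosure ℚ) q) = 0 := by
      linear_combination h1
    exact mul_ne_zero (hxq hx3) (hxq hx3') h2
  have hs' : (s - 2 * q) ^ 2 - 4 * (p - q * s + q ^ 2) ≠ 0 := by
    intro h0
    have h1 := congrArg (algebraMap ℚ (AlgebraicClosure ℚ)) h0
    simp only [_root_.map_add, map_sub, map_mul, map_pow, _root_.map_zero, hs, hp, map_ofNat] at h1
    have h2 : (x - x') ^ 2 = 0 := by linear_combination h1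
    exact hne (sub_eq_zero.mp (pow_eq_zero_iff two_ne_zero |>.mp h2))
  simp only [Torsion.P3] at hq
  have key := X015.x015 (b2 := E.b₂ + 12 * q) (b4 := E.b₄ + q * E.b₂ + 6 * q ^ 2)
    (b6 := E.b₆ + 2 * q * E.b₄ + q ^ 2 * E.b₂ + 4 * q ^ 3) (s := s - 2 * q)
    (p := p - q * s + q ^ 2) (c4 := E.c₄) (Δ := E.Δ)
    (by linear_combination 4 * hq - hb)
    (by linear_combination R1)
    (by linear_combination R3 - q * R1 - hq)
    hp'
    (by rw [WeierstrassCurve.c₄]; ring)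
    (by
      rw [WeierstrassCurve.Δ]
      linear_combination (6 * E.b₂ * q + 36 * q ^ 2) * hb - (E.b₂ + 12 * q) ^ 2 * hq)
    hs' hΔE
  rw [hEc4, hEΔ] at key
  have hss := hW 5 Nat.prime_five
  rcases key with k | k | k | k
  · have k' : 2 * W.c₄ ^ 3 = -25 * W.Δ := by exact_mod_cast k
    exact no_five hss k' (by norm_num) (by norm_num) (by norm_num)
  · have k' : 8 * W.c₄ ^ 3 = -349938025 * W.Δ := by exact_mod_cast k
    exact no_five hss k' (by norm_num) (by norm_num) (by norm_num)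
  · have k' : 32 * W.c₄ ^ 3 = -121945 * W.Δ := by exact_mod_cast k
    exact no_five hss k' (by norm_num) (by norm_num) (by norm_num)
  · have k' : 32768 * W.c₄ ^ 3 = 46969655 * W.Δ := by exact_mod_cast k
    exact no_five hss k' (by norm_num) (by norm_num) (by norm_num)

end Fermat.Agent.S51
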