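import Fermat.Statements.S03
import Fermat.Agent.Final.LowerFrey
import Fermat.Agent.Final.LiftFin
import Fermat.Agent.Final.Top
import Fermat.Agent.LLv.Fin

set_option autoImplicit false
open FreyPackage

namespace Fermat.Agent.S03

theorem result (P : FreyPackage) : False :=
  Fermat.Agent.Final.noFreyPackage_frey Fermat.Agent.Final.zThm3 Fermat.Agent.Final.lifting3
    Fermat.Agent.Final.lifting5 Fermat.Agent.Final.switch2 Fermat.Agent.LLv.loweringAtPFrey
    Fermat.Agent.Final.loweringFrey Fermat.Agent.S09.result P

end Fermat.Agent.S03
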