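import Fermat.Statements.S26
import Fermat.Agent.AVN.Glue
import Fermat.Agent.AVC.Final
import Fermat.Agent.AVFin.Deg
import Fermat.Agent.AVE1.Quad2
import Fermat.Agent.AVn.StarFinal

set_option autoImplicit false
set_option autoImplicit false
open CategoryTheory CategoryTheory.Limits AlgebraicGeometry NeronModelInfra GoodReductionJacobian
universe u
open GoodReductionJacobian GoodReductionJacobian.RelativeGroupLaw

namespace Fermat.Agent.S26

theorem result
    (K : Type u) [Field K] [IsAlgClosed K] {A : Scheme.{u}} (f : A ⟶ Spec (CommRingCat.of K))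
    (L : RelativeGroupLaw K f) (hc : L.IsCommutative) (hA : AbelianSchemePropertyBundle K f)
    (g : ℕ) [SmoothOfRelativeDimension g f] (n : ℕ) (hn : (n : K) ≠ 0) :
    Nat.card {x : SchemeHomOver (𝟙 (Spec (CommRingCat.of K))) f //
        L.IsTorsionPoint (𝟙 (Spec (CommRingCat.of K))) n x} = n ^ (2 * g) := by
  haveI : ConnectedSpace A := Fermat.Agent.AVC.connectedSpace_of_fibres f hA.connectedFibres
  haveI : IsIntegral A := Fermat.Agent.AVC.isIntegral f g
  haveI : IsProper f := hA.proper
  have hI : Fermat.Agent.AVS.Input f g := Fermat.Agent.AVC.input f g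
  exact Fermat.Agent.AVN.natCard_of_degStmt L hc g hI
    (Fermat.Agent.AVFin.degStmt _ (Fermat.Agent.AVE1.quadStmt _
      (Fermat.Agent.AVn.AVar.starStmt _))) n hn

end Fermat.Agent.S26
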