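import Fermat.Statements.S32
import Fermat.Agent.FlatT.Concrete
import Fermat.Agent.HeckeGal.S31FromS30

set_option autoImplicit false
variable {p : ℕ} {N : ℕ} [NeZero N] {S : Finset ℕ}
  {𝒪 : Type} [CommRing 𝒪] [IsDomain 𝒪] [IsDiscreteValuationRing 𝒪]
  [IsAdicComplete (IsLocalRing.maximalIdeal 𝒪) 𝒪]
  {θ : CuspForm.heckeAlgebra N 2 (↑S : Set ℕ) →+* IsLocalRing.ResidueField 𝒪}
  {T : Type} [CommRing T] [IsLocalRing T] [IsNoetherianRing T]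
  [IsAdicComplete (IsLocalRing.maximalIdeal T) T] [Algebra 𝒪 T] [IsLocalHom (algebraMap 𝒪 T)]
  [Module.Finite 𝒪 T] [Module.Free 𝒪 T]
open CuspForm CuspForm.HeckeGaloisRepDatum

namespace Fermat.Agent.S32

theorem result
    [Finite (IsLocalRing.ResidueField 𝒪)] [CharZero 𝒪]
    (hp : p.Prime) (hp2 : p ≠ 2) (hp𝒪 : (p : 𝒪) ∈ IsLocalRing.maximalIdeal 𝒪) (hpN : ¬ p ∣ N)
    (hpS : p ∈ S) (hNS : ∀ q : ℕ, q.Prime → q ∣ N → q ∈ S)
    (H : CuspForm.HeckeGaloisRepDatum N (↑S : Set ℕ) 𝒪 θ T) :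
    H.ρ.IsFlatAt p := by
  haveI : Fact p.Prime := ⟨hp⟩
  have hS : ∀ q : ℕ, q.Prime → q ∣ N → q ∈ (↑S : Set ℕ) := fun q hq hqN =>
    Finset.mem_coe.2 (hNS q hq hqN)
  haveI hred : IsReduced (CuspForm.heckeAlgebra N 2 (↑S : Set ℕ)) :=
    Fermat.Agent.HeckeGal.isReduced_heckeAlgebra hNS
  haveI hfin := Fermat.Agent.Period.finite_heckeAlgebra N 2 (↑S : Set ℕ)
  haveI htf : IsAddTorsionFree (CuspForm.heckeAlgebra N 2 (↑S : Set ℕ)) :=
    Fermat.Agent.FlatT.isAddTorsionFree_heckeAlgebra N (↑S : Set ℕ)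
  have hres : Finite (IsLocalRing.ResidueField T) :=
    Finite.of_surjective _ (Fermat.Agent.FlatT.residue_map_surjective H.residue_surjective)
  exact Fermat.Agent.FlatT.isFlatAt_of_levels hp2
    (Fermat.Agent.FlatT.jIn N p (↑S : Set ℕ) hS).toModule
    (fun m => Fermat.Agent.FlatT.finite_lev _ m (Fermat.Agent.FlatT.finite_jIn N p _ hS m))
    (fun m => Fermat.Agent.FlatT.isFlatMod_jIn N p hpN _ hS m) hp𝒪 hpS hNS hres H.π H.ρ
    H.charpoly_frob H.residual_absIrr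

end Fermat.Agent.S32
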