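import Fermat.Statements.S33
import Fermat.Agent.OrdS.Main
import Fermat.Agent.TW.RedHecke

set_option autoImplicit false
variable {p : ℕ} {N : ℕ} [NeZero N] {S : Finset ℕ}
  {𝒪 : Type} [CommRing 𝒪] [IsDomain 𝒪] [IsDiscreteValuationRing 𝒪]
  [IsAdicComplete (IsLocalRing.maximalIdeal 𝒪) 𝒪]
  {θ : CuspForm.heckeAlgebra N 2 (↑S : Set ℕ) →+* IsLocalRing.ResidueField 𝒪}
  {T : Type} [CommRing T] [IsLocalRing T] [IsNoetherianRing T]
  [IsAdicComplete (IsLocalRing.maximalIdeal T) T] [Algebra 𝒪 T] [IsLocalHom (algebraMap 𝒪 T)]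
  [Module.Finite 𝒪 T] [Module.Free 𝒪 T]
open CuspForm CuspForm.HeckeGaloisRepDatum

namespace Fermat.Agent.S33

theorem result
    [Finite (IsLocalRing.ResidueField 𝒪)] [CharZero 𝒪]
    (hp : p.Prime) (hp2 : p ≠ 2) (hp𝒪 : (p : 𝒪) ∈ IsLocalRing.maximalIdeal 𝒪) (hN : p ∣ N ∧ ¬ p ^ 2 ∣ N)
    (hNS : ∀ q : ℕ, q.Prime → q ∣ N → q ∈ S)
    (H : CuspForm.HeckeGaloisRepDatum N (↑S : Set ℕ) 𝒪 θ T)
    (hres : (GaloisRepAdic.ofResidualGaloisRep H.ρ.residual).IsOrdinaryAt p) :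
    H.ρ.IsOrdinaryAt p := by
  have : Fact p.Prime := ⟨hp⟩
  obtain ⟨M, rfl⟩ : ∃ M, N = M * p := ⟨N / p, (Nat.div_mul_cancel hN.1).symm⟩
  have hM : ¬ p ∣ M := fun h => hN.2 (by rw [pow_two]; exact Nat.mul_dvd_mul_right h p)
  have hred : IsReduced (CuspForm.heckeAlgebra (M * p) 2 (↑S : Set ℕ)) :=
    Fermat.Agent.HeckeGal.isReduced_heckeAlgebra hNS
  have hfin := Fermat.Agent.Period.finite_heckeAlgebra (M * p) 2 (↑S : Set ℕ)
  have htf : IsAddTorsionFree (CuspForm.heckeAlgebra (M * p) 2 (↑S : Set ℕ)) :=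
    Fermat.Agent.FlatT.isAddTorsionFree_heckeAlgebra (M * p) (↑S : Set ℕ)
  have hredT : IsReduced T := Fermat.Agent.TW.isReduced_of_hecke 𝒪 T _ H.π H.adjoin_range_π
  obtain ⟨b⟩ := Fermat.Agent.DefRing.exists_basis H.ρ
  have hc := Fermat.Agent.DefRing.matOf_cont H.ρ b
  have hspan := Fermat.Agent.OrdS.span_matOf H.ρ b
    (Fermat.Agent.HeckeGal.span_range_eq_top H.ρ H.residual_absIrr)
  have hline := Fermat.Agent.OrdS.lineOver_of_residual H.ρ b hres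
    (Fermat.Agent.TWP.Pl_lies (ExtCitation.pPrime p))
  obtain ⟨hdet, hord⟩ := Fermat.Agent.OrdS.ordAt_hecke hp2 hp𝒪 hM hNS H.π
    (Fermat.Agent.DefRing.matOf H.ρ b) hc hspan
    (fun ℓ hℓ hℓN hℓS A hA σ hσ => Fermat.Agent.OrdS.trace_det_of_charpoly H.ρ b
      (H.charpoly_frob ℓ hℓ hℓN hℓS A hA σ hσ)) hline
  obtain ⟨π', hπ'⟩ := Fermat.Agent.RT8J.exists_pi H.residue_surjective
  have hredn := Fermat.Agent.OrdS.red_mapRep π' hπ' (Fermat.Agent.DefRing.matOf H.ρ b)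
  let π'' : T →ₐ[𝒪] IsLocalRing.ResidueField 𝒪 := { π' with commutes' := hπ' }
  have hord' := hord.map π''
  obtain ⟨bas⟩ := Fermat.Agent.RTan.exists_bas hp2 (Fermat.Agent.OrdS.cycChar_cyc hp𝒪) hp𝒪
    (rbar := Fermat.Agent.DefRing.mapRep π' (Fermat.Agent.DefRing.matOf H.ρ b))
    (fun σ => by
      have h1 : (Fermat.Agent.DefRing.mapRep π' (Fermat.Agent.DefRing.matOf H.ρ b) σ).det =
          π' (Fermat.Agent.DefRing.matOf H.ρ b σ).det :=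
        (RingHom.map_det π' (Fermat.Agent.DefRing.matOf H.ρ b σ)).symm
      rw [h1, hdet, hπ']) hord'
  exact Fermat.Agent.OrdS.isOrdinaryAt_of_ordLoc H.ρ b (bas.ordLoc hredn hord hdet)

end Fermat.Agent.S33
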