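import Fermat.Statements.S49
import Fermat.Agent.DS.Lifting

set_option autoImplicit false
open CuspForm EisensteinWeightOne CongruenceSubgroup ModularFormClass
open FLT FLT.AbstractIntegralStructure

namespace Fermat.Agent.S49

open Fermat.Agent.DS

theorem hasIntegralStructure_of_basis {N : ℕ} (h : CuspForm.HasIntegralBasis N) :
    HasIntegralStructure N 2 := by
  rw [HasIntegralStructure, eq_top_iff, ← (h : Submodule.span ℂ (qIntegralSet N) = ⊤)]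
  apply Submodule.span_mono
  intro f hf
  rw [SetLike.mem_coe, mem_intLattice]
  intro n
  obtain ⟨m, hm⟩ := Subring.mem_bot.mp (hf n)
  exact ⟨m, hm.symm⟩

theorem coeff_bridge (a : ℕ → ℤ) (n : ℕ) : (3 : ℤ) ∣ (bridgeProduct a).coeff n - a n := by
  rw [bridgeProduct, PowerSeries.coeff_mul]
  have hmem : (n, 0) ∈ Finset.HasAntidiagonal.antidiagonal n := by simp
  rw [← Finset.add_sum_erase _ _ hmem]
  have h0 : (PowerSeries.coeff 0) (e1Chi3In ℤ) = 1 := by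
    simp [e1Chi3In, e1Chi3]
  rw [PowerSeries.coeff_mk]
  simp only [h0, mul_one]
  rw [add_sub_cancel_left]
  apply Finset.dvd_sum
  rintro ⟨i, j⟩ hij
  rw [Finset.mem_erase, Finset.HasAntidiagonal.mem_antidiagonal] at hij
  have hj : j ≠ 0 := by
    rintro rfl
    apply hij.1
    have := hij.2
    simp only [add_zero] at this
    rw [this]
  have : (PowerSeries.coeff j) (e1Chi3In ℤ) = 6 * sigmaChi j := by
    simp [e1Chi3In, e1Chi3, hj]
  simp only [this]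
  exact Dvd.dvd.mul_left (Dvd.dvd.mul_right (by norm_num) _) _

theorem three_dvd_chi (p : ℕ) : (3 : ℤ) ∣ (p : ℤ) - chiNegThree p := by
  unfold chiNegThree
  split_ifs with h1 h2
  · omega
  · omega
  · omega

theorem hecke_T_mod {N : ℕ} [NeZero N] (f : CuspForm (Gamma0 N) 2) {a af : ℕ → ℤ}
    (heig : FormalHecke.IsEigensystem
      (fun ℓ => if ℓ ∣ N then 0 else ((chiNegThree ℓ : ℤ) : ℤ)) a)
    (haf : ∀ n, (af n : ℂ) = qCoeff f n)
    (hcong : ∀ n, (3 : ℤ) ∣ af n - a n)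
    (ℓ : ℕ) (hℓ : ℓ.Prime) (hℓN : ¬ ℓ ∣ N) :
    heckeTLin 2 hℓ hℓN f - (a ℓ) • f ∈ divSub N 2 3 := by
  obtain ⟨-, ha⟩ := heig
  intro n
  rw [qCoeff_sub', qCoeff_zsmul', qCoeff_heckeTLin]
  have e1 := ha ℓ hℓ n
  simp only [if_neg hℓN] at e1
  rw [← haf (n * ℓ), ← haf n]
  have h2 : ((2 : ℤ) - 1) = 1 := by norm_num
  rw [h2, zpow_one]
  by_cases hd : ℓ ∣ n
  · rw [if_pos hd] at e1 ⊢
    rw [← haf (n / ℓ)]
    obtain ⟨u, hu⟩ := hcong (n * ℓ)
    obtain ⟨v, hv⟩ := hcong n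
    obtain ⟨w, hw⟩ := hcong (n / ℓ)
    obtain ⟨x, hx⟩ := three_dvd_chi ℓ
    refine ⟨u + ℓ * w + x * a (n / ℓ) - a ℓ * v, ?_⟩
    have : af (n * ℓ) + ℓ * af (n / ℓ) - a ℓ * af n =
        3 * (u + ℓ * w + x * a (n / ℓ) - a ℓ * v) := by
      have e1' : a (n * ℓ) + chiNegThree ℓ * a (n / ℓ) = a ℓ * a n := by
        rw [mul_comm n ℓ]; exact e1
      linear_combination hu + (ℓ : ℤ) * hw - a ℓ * hv + e1' + a (n / ℓ) * hx
    exact_mod_cast this
  · rw [if_neg hd] at e1 ⊢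
    obtain ⟨u, hu⟩ := hcong (n * ℓ)
    obtain ⟨v, hv⟩ := hcong n
    refine ⟨u - a ℓ * v, ?_⟩
    have : af (n * ℓ) + 0 - a ℓ * af n = 3 * (u - a ℓ * v) := by
      have e1' : a (n * ℓ) = a ℓ * a n := by
        rw [mul_comm n ℓ]; simpa using e1
      linear_combination hu - a ℓ * hv + e1'
    exact_mod_cast this

theorem hecke_U_mod {N : ℕ} [NeZero N] (f : CuspForm (Gamma0 N) 2) {a af : ℕ → ℤ}
    (heig : FormalHecke.IsEigensystem
      (fun ℓ => if ℓ ∣ N then 0 else ((chiNegThree ℓ : ℤ) : ℤ)) a)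
    (haf : ∀ n, (af n : ℂ) = qCoeff f n)
    (hcong : ∀ n, (3 : ℤ) ∣ af n - a n)
    (ℓ : ℕ) (hℓ : ℓ.Prime) (hℓN : ℓ ∣ N) :
    heckeULin 2 hℓN f - (a ℓ) • f ∈ divSub N 2 3 := by
  obtain ⟨-, ha⟩ := heig
  intro n
  rw [qCoeff_sub', qCoeff_zsmul', qCoeff_heckeULin hℓ]
  have e1 := ha ℓ hℓ n
  simp only [if_pos hℓN, zero_mul, add_zero] at e1
  rw [← haf (n * ℓ), ← haf n]
  obtain ⟨u, hu⟩ := hcong (n * ℓ)
  obtain ⟨v, hv⟩ := hcong n
  refine ⟨u - a ℓ * v, ?_⟩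
  have : af (n * ℓ) - a ℓ * af n = 3 * (u - a ℓ * v) := by
    have e1' : a (n * ℓ) = a ℓ * a n := by
      rw [mul_comm n ℓ]; exact e1
    linear_combination hu - a ℓ * hv + e1'
  exact_mod_cast this

theorem result
    {N : ℕ} [NeZero N] (h : CuspForm.HasIntegralBasis N) {a : ℕ → ℤ}
    (heig : FormalHecke.IsEigensystem
      (fun ℓ => if ℓ ∣ N then 0 else ((chiNegThree ℓ : ℤ) : ℤ)) a)
    (hreal : CuspForm.IsLatticeRealized N a) :
    ∃ (f : CuspForm (Gamma0 N) 2) (_ : f.IsNormalizedEigenform)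
      (𝔪' : Ideal (integralClosure ℤ ℂ)), 𝔪'.IsMaximal ∧
      ((3 : ℕ) : integralClosure ℤ ℂ) ∈ 𝔪' ∧
      ∀ (ℓ : ℕ) (_ : ℓ.Prime) (_ : ¬ ℓ ∣ N),
        ∃ c : integralClosure ℤ ℂ, (c : ℂ) = ModularFormClass.qCoeff f ℓ ∧
          c - (a ℓ : integralClosure ℤ ℂ) ∈ 𝔪' := by
  obtain ⟨f, hf, af, haf, hafa⟩ := hreal
  -- `af ≡ a mod 3`
  have hcong : ∀ n, (3 : ℤ) ∣ af n - a n := by
    intro n
    have := dvd_add (hafa n) (coeff_bridge a n)
    rwa [sub_add_sub_cancel] at this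
  have hf1 : ¬ (3 : ℤ) ∣ af 1 := by
    intro h3
    have := hcong 1
    rw [heig.1] at this
    have h4 := dvd_sub h3 this
    rw [sub_sub_cancel] at h4
    norm_num at h4
  obtain ⟨g, χ, Q, hQmax, h3Q, hg1, hg, hQ⟩ := deligneSerre_lift (k := 2) (by norm_num)
    (hasIntegralStructure_of_basis h) Int.prime_three f af a haf hf1
    (hecke_T_mod f heig haf hcong) (hecke_U_mod f heig haf hcong)
  have hgN : g.IsNormalizedEigenform := isNormalizedEigenform_of_eigen g hg1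
    (fun p hp hpN => ⟨_, hg (heckeAlgebra.T hp hpN (Set.notMem_empty p))⟩)
    (fun p hp hpN => ⟨_, hg (heckeAlgebra.U hp hpN (Set.notMem_empty p))⟩)
  refine ⟨g, hgN, Q, hQmax, ?_, ?_⟩
  · have : ((3 : ℕ) : integralClosure ℤ ℂ) = ((3 : ℤ) : integralClosure ℤ ℂ) := by
      push_cast; rfl
    rw [this]
    exact h3Q
  · intro ℓ hℓ hℓN
    refine ⟨χ (heckeAlgebra.T hℓ hℓN (Set.notMem_empty ℓ)), ?_, ?_⟩
    · have hTg : heckeTLin 2 hℓ hℓN g =
        (χ (heckeAlgebra.T hℓ hℓN (Set.notMem_empty ℓ)) : ℂ) • g :=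
        hg (heckeAlgebra.T hℓ hℓN (Set.notMem_empty ℓ))
      have h1 := qCoeff_heckeTLin hℓ hℓN g 1
      rw [hTg] at h1
      have h2 := (coeffL N 2 1).map_smul
        (χ (heckeAlgebra.T hℓ hℓN (Set.notMem_empty ℓ)) : ℂ) g
      simp only [coeffL_apply, smul_eq_mul] at h2
      rw [h2, hg1, mul_one, one_mul, if_neg (by simpa using hℓ.one_lt.ne'), add_zero] at h1
      exact h1
    · have h3 : ((heckeAlgebra.T hℓ hℓN (Set.notMem_empty ℓ) -
          (a ℓ : heckeAlgebra N 2 (∅ : Set ℕ)) : heckeAlgebra N 2 (∅ : Set ℕ)) :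
            Module.End ℂ (CuspForm (Gamma0 N) 2)) f =
          heckeTLin 2 hℓ hℓN f - (a ℓ) • f := by
        rw [← intCast_apply (∅ : Set ℕ)]
        rfl
      have h4 := (hQ (heckeAlgebra.T hℓ hℓN (Set.notMem_empty ℓ) -
          (a ℓ : heckeAlgebra N 2 (∅ : Set ℕ)))).mp (by
            rw [h3]
            exact hecke_T_mod f heig haf hcong ℓ hℓ hℓN)
      rwa [map_sub, map_intCast] at h4

end Fermat.Agent.S49
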