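import Fermat.Statements.S54
import Fermat.Agent.Frob.Exists
import Fermat.Agent.Frob.GaloisRepTrace
import Fermat.Agent.Frob.QbarInst

set_option autoImplicit false
open GaloisRep GaloisRep.DeformationRingData

namespace Fermat.Agent.S54

theorem result {𝒪 : Type} [CommRing 𝒪] [IsDomain 𝒪] [IsDiscreteValuationRing 𝒪] [IsAdicComplete (IsLocalRing.maximalIdeal 𝒪) 𝒪] {ρbar : ResidualGaloisRep (IsLocalRing.ResidueField 𝒪)} {𝒟 : ∀ ⦃A : Type⦄ [CommRing A] [IsLocalRing A] [Algebra 𝒪 A], GaloisRepAdic A → Prop} (D : GaloisRep.DeformationRingData 𝒪 ρbar 𝒟) {N : ℕ} [NeZero N] {S : Set ℕ} {θ : CuspForm.heckeAlgebra N 2 S →+* IsLocalRing.ResidueField 𝒪} {T : Type} [CommRing T] [IsLocalRing T] [IsNoetherianRing T] [IsAdicComplete (IsLocalRing.maximalIdeal T) T] [Algebra 𝒪 T] [IsLocalHom (algebraMap 𝒪 T)] [Module.Finite 𝒪 T] [Module.Free 𝒪 T] (H : CuspForm.HeckeGaloisRepDatum N S 𝒪 θ T) (hS : ∀ q : ℕ, q.Prime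 → q ∣ N → q ∈ S) (h𝒟 : 𝒟 H.ρ) (hres : H.ρ.residual.IsEquiv (ρbar.baseChangeAlong (IsLocalRing.ResidueField.map (algebraMap 𝒪 T)))) : ∃ φ : D.R →ₐ[𝒪] T, Function.Surjective φ ∧ ∃ hφ : IsLocalHom (φ : D.R →+* T), (D.ρ.baseChangeAlong (φ : D.R →+* T) hφ).IsEquiv H.ρ := by
  obtain ⟨φ, ⟨hφ, heq⟩, -⟩ := D.universal T H.residue_surjective H.ρ h𝒟 hres
  refine ⟨φ, ?_, hφ, heq⟩
  have hgen : ∀ (t : Module.End ℂ (CuspForm (CongruenceSubgroup.Gamma0 N) 2))
      (ht : t ∈ CuspForm.heckeAlgebra N 2 S), H.π ⟨t, ht⟩ ∈ φ.range := by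
    intro t ht
    induction ht using Algebra.adjoin_induction with
    | mem t ht =>
      rcases ht with ⟨ℓ, hℓ, hℓN, hℓS, rfl⟩ | ⟨q, hqN, hq, hqS, rfl⟩
      · obtain ⟨A, hA, σ, hσ⟩ :=
          Fermat.Agent.Frob.exists_liesOverPrime_isFrobeniusAt (L := AlgebraicClosure ℚ) hℓ
        have h1 := H.charpoly_frob ℓ hℓ hℓN hℓS A hA σ hσ
        have h2 : H.ρ.trace σ = H.π (CuspForm.heckeAlgebra.T hℓ hℓN hℓS) :=
          Fermat.Agent.Frob.trace_eq_of_charpoly_eq _ h1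
        have h3 := Fermat.Agent.Frob.trace_eq_of_isEquiv heq σ
        rw [Fermat.Agent.Frob.trace_baseChangeAlong, h2] at h3
        exact ⟨D.ρ.trace σ, h3⟩
      · exact absurd (hS q hq hqN) hqS
    | algebraMap r =>
      have : (⟨algebraMap ℤ _ r, Subalgebra.algebraMap_mem _ r⟩ : CuspForm.heckeAlgebra N 2 S) =
          (r : CuspForm.heckeAlgebra N 2 S) := by
        apply Subtype.ext
        simp
      rw [this, map_intCast]
      exact intCast_mem _ r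
    | add x y hx hy ihx ihy =>
      have : (⟨x + y, add_mem hx hy⟩ : CuspForm.heckeAlgebra N 2 S) = ⟨x, hx⟩ + ⟨y, hy⟩ := rfl
      rw [this, map_add]
      exact add_mem ihx ihy
    | mul x y hx hy ihx ihy =>
      have : (⟨x * y, mul_mem hx hy⟩ : CuspForm.heckeAlgebra N 2 S) = ⟨x, hx⟩ * ⟨y, hy⟩ := rfl
      rw [this, map_mul]
      exact mul_mem ihx ihy
  have htop : φ.range = ⊤ := by
    rw [eq_top_iff, ← H.adjoin_range_π]
    apply Algebra.adjoin_le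
    rintro _ ⟨t, rfl⟩
    exact hgen t.1 t.2
  exact (AlgHom.range_eq_top φ).mp htop

end Fermat.Agent.S54
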