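import Fermat.Statements.S57
import Fermat.Agent.CommAlg.RegularGlobalDim
import Fermat.Agent.CommAlg.PowerSeriesRegular
import Mathlib.LinearAlgebra.FreeModule.Basic
import Mathlib.RingTheory.Flat.Basic

set_option autoImplicit false
open Algebra Algebra.PatchingLevel

namespace Fermat.Agent.S57

open RingTheory.Sequence IsLocalRing

theorem isWeaklyRegular_pi {A : Type} [CommRing A] (rs : List A) (h : IsWeaklyRegular A rs)
    (d : ℕ) : IsWeaklyRegular (Fin d → A) rs := by
  have h1 : IsWeaklyRegular (TensorProduct A (Fin d → A) A) rs := h.isWeaklyRegular_lTensor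
  exact ((TensorProduct.rid A (Fin d → A)).isWeaklyRegular_congr rs).1 h1

theorem result
    {𝒪 : Type} [CommRing 𝒪] [IsDomain 𝒪] [IsDiscreteValuationRing 𝒪]
    {r : ℕ} {R : Type} [CommRing R] [Algebra 𝒪 R]
    {M : Type} [AddCommGroup M] [Module R M] [Nontrivial M]
    (L : Algebra.PatchingLevel 𝒪 r R M ⊥) :
    Module.Free R M ∧ Module.annihilator R M = ⊥ ∧
      RingHom.ker L.ψ = Ideal.span (Set.range fun i : Fin r => L.φ (MvPowerSeries.X i)) := by
  classical
  obtain ⟨ϖ, hϖ, hreg, hmax⟩ := Fermat.Agent.CommAlg.stdPar_dvr (O := 𝒪) r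
  set rs := Fermat.Agent.CommAlg.stdPar ϖ r with hrs
  have hRnt : Nontrivial R := Module.nontrivial R M
  have hφX : ∀ i, L.φ (MvPowerSeries.X i) ∈ maximalIdeal (MvPowerSeries (Fin r) 𝒪) := by
    intro i
    rw [mem_maximalIdeal, mem_nonunits_iff]
    intro hu
    have h1 := hu.map L.ψ
    rw [L.ψ_φ_X i] at h1
    exact not_isUnit_zero h1
  have hφϖ : L.φ (MvPowerSeries.C ϖ) = MvPowerSeries.C ϖ := L.φ.commutes ϖ
  have hmem : ∀ y ∈ rs.map L.φ, y ∈ maximalIdeal (MvPowerSeries (Fin r) 𝒪) := by
    intro y hy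
    rw [List.mem_map] at hy
    obtain ⟨z, hz, rfl⟩ := hy
    rw [hrs, Fermat.Agent.CommAlg.stdPar, List.mem_append] at hz
    rcases hz with hz | hz
    · rw [List.mem_ofFn'] at hz
      obtain ⟨i, rfl⟩ := hz
      exact hφX i
    · rw [List.mem_singleton] at hz
      subst hz
      rw [hφϖ, ← hmax]
      refine Ideal.subset_span ?_
      show _ ∈ rs
      rw [hrs, Fermat.Agent.CommAlg.stdPar]
      simp
  -- the comparison map
  let e0 : (Fin L.d → MvPowerSeries (Fin r) 𝒪) →+ L.N :=
    { toFun := fun c => ∑ i, L.φ (c i) • L.b i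
      map_zero' := by simp
      map_add' := fun a b => by simp [add_smul, Finset.sum_add_distrib] }
  have he0 : Function.Bijective e0 := by
    constructor
    · rw [injective_iff_map_eq_zero]
      intro c hc
      have := (L.b_rel c).1 hc
      funext i
      simpa using this i
    · intro x
      obtain ⟨c, hc⟩ := L.b_span x
      exact ⟨c, hc.symm⟩
  have hNreg : IsWeaklyRegular L.N (rs.map L.φ) := by
    refine ((AddEquiv.ofBijective e0 he0).isWeaklyRegular_congr (as := rs) (bs := rs.map L.φ) ?_).1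
      (isWeaklyRegular_pi rs hreg L.d)
    rw [List.forall₂_map_right_iff]
    refine List.forall₂_same.2 fun a _ x => ?_
    show e0 (a • x) = L.φ a • e0 x
    simp only [e0, AddMonoidHom.coe_mk, ZeroHom.coe_mk, Pi.smul_apply, smul_eq_mul, map_mul,
      mul_smul, Finset.smul_sum]
  have hfin : Module.Finite (MvPowerSeries (Fin r) 𝒪) L.N := by
    refine Module.Finite.of_surjective
      (Fintype.linearCombination (MvPowerSeries (Fin r) 𝒪) L.b) ?_
    intro x
    obtain ⟨c, hc⟩ := L.b_span x
    exact ⟨fun i => L.φ (c i), hc.symm⟩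
  have hfree : Module.Free (MvPowerSeries (Fin r) 𝒪) L.N :=
    Fermat.Agent.CommAlg.free_of_isWeaklyRegular rs hreg hmax L.N (rs.map L.φ)
      (List.length_map _) hNreg hmem
  have hNnt : Nontrivial L.N := L.π_surjective.nontrivial
  let bas := Module.Free.chooseBasis (MvPowerSeries (Fin r) 𝒪) L.N
  set I := Ideal.span (Set.range fun i : Fin r => L.φ (MvPowerSeries.X i)) with hI
  have hIψ : ∀ f ∈ I, L.ψ f = 0 := by
    intro f hf
    have : I ≤ RingHom.ker L.ψ := by
      rw [hI, Ideal.span_le]
      rintro _ ⟨i, rfl⟩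
      exact L.ψ_φ_X i
    exact this hf
  have hcoord : ∀ x ∈ I • (⊤ : Submodule (MvPowerSeries (Fin r) 𝒪) L.N), ∀ i,
      bas.repr x i ∈ I := by
    intro x hx i
    refine Submodule.smul_induction_on hx (fun a ha n _ => ?_) (fun a b ha hb => ?_)
    · rw [map_smul, Finsupp.smul_apply, smul_eq_mul]
      exact Ideal.mul_mem_right _ _ ha
    · rw [map_add, Finsupp.add_apply]
      exact Ideal.add_mem _ ha hb
  have hker : RingHom.ker L.ψ = I := by
    apply le_antisymm
    · intro f hf
      obtain ⟨i⟩ : Nonempty (Module.Free.ChooseBasisIndex (MvPowerSeries (Fin r) 𝒪) L.N) :=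
        bas.index_nonempty
      have h1 : L.π (f • bas i) = 0 := by
        rw [L.π_smul, RingHom.mem_ker.1 hf, zero_smul]
      rw [L.ker_π] at h1
      have h2 := hcoord _ h1 i
      simpa using h2
    · intro f hf
      exact hIψ f hf
  have hMfree : Module.Free R M := by
    let bM : Module.Free.ChooseBasisIndex (MvPowerSeries (Fin r) 𝒪) L.N → M :=
      fun i => L.π (bas i)
    have hπsum : ∀ a : Module.Free.ChooseBasisIndex (MvPowerSeries (Fin r) 𝒪) L.N →
        MvPowerSeries (Fin r) 𝒪, L.π (∑ i, a i • bas i) = ∑ i, L.ψ (a i) • bM i := by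
      intro a
      rw [map_sum]
      exact Finset.sum_congr rfl fun i _ => L.π_smul _ _
    have hli : LinearIndependent R bM := by
      rw [Fintype.linearIndependent_iff]
      intro g hg i
      choose a ha using fun i => L.ψ_surjective (g i)
      have h1 : L.π (∑ i, a i • bas i) = 0 := by
        rw [hπsum, ← hg]
        exact Finset.sum_congr rfl fun i _ => by rw [ha]
      rw [L.ker_π] at h1
      have h2 := hcoord _ h1 i
      rw [bas.repr_sum_self] at h2
      rw [← ha i]
      exact hIψ _ h2
    have hsp : ⊤ ≤ Submodule.span R (Set.range bM) := by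
      intro m _
      obtain ⟨x, rfl⟩ := L.π_surjective m
      rw [← bas.sum_repr x, hπsum]
      exact Submodule.sum_mem _ fun i _ => Submodule.smul_mem _ _
        (Submodule.subset_span ⟨i, rfl⟩)
    exact Module.Free.of_basis (Module.Basis.mk hli hsp)
  refine ⟨hMfree, ?_, hker⟩
  exact Module.annihilator_eq_bot.mpr inferInstance

end Fermat.Agent.S57
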